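import Fermat.Agent.S31.Defs
import Fermat.Agent.S31.H169.PowTr
import Fermat.Agent.S31.H242.TraceCongr
import Fermat.Prelude.Def_GaloisRep_LocalConditions

/-!
# Row S34 — top glue (helper193, cell A2)

`S34 ⇐ A2Input + CHEB (Tier 1, on main) + PTS (row S31, pieces D + SS)`.

* `A2Input` : the exact statement the cell A2 / Tower A has to deliver: for every `p`-adic point
  `χ` of the Hecke algebra of level `N` (away from `S`) and every prime `q ≠ p` with `q ∥ N` there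
  is SOME Galois representation over SOME local noetherian ring `𝒪''` containing the coefficient
  ring of `χ`, with the Eichler–Shimura Frobenius characteristic polynomials, which is unipotent
  on inertia at `q` (Prelude sense: `charpoly = (X - 1) ^ 2`).
* `unipotent_of_parts` : from `A2Input`, `ChebStatement` and `PTS` the representation of ANY
  Hecke–Galois datum is unipotent on inertia at `q ∥ N`, `q ≠ p`  (= frozen S34).

Proof: for `τ` in an inertia group at `q` and every `n`, Frobenius division gives a Frobenius `σ`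
at `ℓ ∉ S` and `j` with `σ ^ j = τ` on a large finite extension; `tr ρ(τ) ≡ π(h)`,
`det ρ(τ) ≡ ℓ ^ j` modulo `m_T ^ n` with `h = powTr T_ℓ ℓ j`; at every `p`-adic point
`χ_i(h) ≡ 2`, `ℓ ^ j ≡ 1`; PTS gives `h - 2, ℓ ^ j - 1 ∈ m ^ n`; Krull's intersection theorem.
The pieces B, C of row S31 (`H169`, `H242`, on main) are reused; the elementary lemma
`exists_pow_comap_le` follows helper22's piece E of row S31.
-/

set_option autoImplicit false

open Polynomial

namespace Fermat.Agent.S34.H193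

open Fermat.Agent.S31

/-! ### Interface -/

/-- The Frobenius condition relating a representation over `A` and a character of the Hecke
algebra. -/
def FrobCond {N : ℕ} [NeZero N] {S : Finset ℕ} {A : Type} [CommRing A] [IsLocalRing A]
    (ρ : GaloisRepAdic A) (φ : CuspForm.heckeAlgebra N 2 (↑S : Set ℕ) →+* A) : Prop :=
  ∀ (ℓ : ℕ) (hℓ : ℓ.Prime) (hℓN : ¬ ℓ ∣ N) (hℓS : ℓ ∉ (↑S : Set ℕ)),
    ∀ B : ValuationSubring Qb, B.LiesOverPrime ℓ →
      ∀ σ : GQ, B.IsFrobeniusAt σ ℓ →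
        LinearMap.charpoly (ρ.ρ σ) =
          X ^ 2 - C (φ (CuspForm.heckeAlgebra.T hℓ hℓN hℓS)) * X + C ((ℓ : A))

/-- **Input of row S34** (to be delivered by Tower A + cell A2): every `p`-adic point of the Hecke
algebra carries, for each prime `q ≠ p` exactly dividing the level, a Galois representation with
the Eichler–Shimura Frobenius polynomials which is unipotent on inertia at `q`. -/
def A2Input : Prop :=
  ∀ (p : ℕ) [Fact p.Prime] (N : ℕ) [NeZero N] (S : Finset ℕ)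
    (_hpS : p ∈ S) (_hNS : ∀ q : ℕ, q.Prime → q ∣ N → q ∈ S)
    (𝒪' : Type) [CommRing 𝒪'] [IsDomain 𝒪'] [IsDiscreteValuationRing 𝒪']
    [IsAdicComplete (IsLocalRing.maximalIdeal 𝒪') 𝒪'] [Finite (IsLocalRing.ResidueField 𝒪')]
    [CharZero 𝒪'] (_hp𝒪' : (p : 𝒪') ∈ IsLocalRing.maximalIdeal 𝒪')
    (χ : CuspForm.heckeAlgebra N 2 (↑S : Set ℕ) →+* 𝒪')
    (q : ℕ) (_hq : q.Prime) (_hqp : q ≠ p) (_hqN : q ∣ N) (_hq2 : ¬ q ^ 2 ∣ N),
    ∃ (𝒪'' : Type) (_ : CommRing 𝒪'') (_ : IsLocalRing 𝒪'') (_ : IsNoetherianRing 𝒪'')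
      (φ : 𝒪' →+* 𝒪''), Function.Injective φ ∧
      ∃ ρ : GaloisRepAdic 𝒪'', FrobCond ρ (φ.comp χ) ∧ ρ.IsUnipotentOnInertiaAt q

/-! ### Linear algebra in rank 2 -/

/-- The characteristic polynomial of an endomorphism of a free module of rank 2. -/
theorem charpoly_eq_of_finrank_two {R : Type*} [CommRing R] {M : Type*} [AddCommGroup M]
    [Module R M] [Module.Free R M] [Module.Finite R M] (hrk : Module.finrank R M = 2)
    (f : Module.End R M) :
    f.charpoly = X ^ 2 - C (LinearMap.trace R M f) * X + C (LinearMap.det f) := by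
  rcases subsingleton_or_nontrivial R with hR | hR
  · exact Subsingleton.elim _ _
  classical
  let b : Module.Basis (Fin 2) R M := Module.finBasisOfFinrankEq R M hrk
  rw [← LinearMap.charpoly_toMatrix f b, Matrix.charpoly_fin_two,
    ← LinearMap.trace_eq_matrix_trace R b f, LinearMap.det_toMatrix b f]

/-- Trace from a quadratic characteristic polynomial. -/
theorem trace_of_charpoly {R : Type*} [CommRing R] {M : Type*} [AddCommGroup M] [Module R M]
    [Module.Free R M] [Module.Finite R M] (hrk : Module.finrank R M = 2) (f : Module.End R M)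
    (a d : R) (h : f.charpoly = X ^ 2 - C a * X + C d) : LinearMap.trace R M f = a := by
  have := H169.trace_pow_of_charpoly hrk f a d h 1
  simpa [powTr] using this

/-- Determinant from a quadratic characteristic polynomial. -/
theorem det_of_charpoly {R : Type*} [CommRing R] {M : Type*} [AddCommGroup M] [Module R M]
    [Module.Free R M] [Module.Finite R M] (hrk : Module.finrank R M = 2) (f : Module.End R M)
    (a d : R) (h : f.charpoly = X ^ 2 - C a * X + C d) : LinearMap.det f = d := by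
  have h1 := charpoly_eq_of_finrank_two hrk f
  rw [h] at h1
  have h2 := congrArg (fun P : R[X] => P.coeff 0) h1
  simp only [coeff_add, coeff_sub, coeff_C_zero, coeff_X_pow, coeff_mul_X_zero] at h2
  simpa using h2.symm

/-- Determinant of a power. -/
theorem det_pow_of_charpoly {R : Type*} [CommRing R] {M : Type*} [AddCommGroup M] [Module R M]
    [Module.Free R M] [Module.Finite R M] (hrk : Module.finrank R M = 2) (f : Module.End R M)
    (a d : R) (h : f.charpoly = X ^ 2 - C a * X + C d) (j : ℕ) :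
    LinearMap.det (f ^ j) = d ^ j := by
  rw [map_pow, det_of_charpoly hrk f a d h]

/-- `(X - 1) ^ 2` in the normal form used above. -/
theorem sub_one_sq_eq {R : Type*} [CommRing R] :
    ((X : R[X]) - 1) ^ 2 = X ^ 2 - C (2 : R) * X + C (1 : R) := by
  simp only [map_ofNat, map_one]
  ring

/-- An endomorphism of a finite free module congruent to the identity modulo `I` has determinant
congruent to `1` modulo `I`. -/
theorem det_sub_one_mem {R M : Type*} [CommRing R] [AddCommGroup M] [Module R M]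
    [Module.Free R M] [Module.Finite R M] (I : Ideal R) (f : Module.End R M)
    (hf : ∀ v : M, f v - v ∈ I • (⊤ : Submodule R M)) : LinearMap.det f - 1 ∈ I := by
  classical
  let b := Module.Free.chooseBasis R M
  rw [← LinearMap.det_toMatrix b f, ← Ideal.Quotient.eq_zero_iff_mem, map_sub, map_one,
    RingHom.map_det]
  have hmat : (Ideal.Quotient.mk I).mapMatrix (LinearMap.toMatrix b b f) = 1 := by
    ext i j
    rw [RingHom.mapMatrix_apply, Matrix.map_apply, LinearMap.toMatrix_apply, Matrix.one_apply]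
    have h1 : b.repr (f (b j)) i - b.repr (b j) i ∈ I := by
      have := H242.repr_mem_of_mem_smul_top b I (hf (b j)) i
      rwa [map_sub, Finsupp.sub_apply] at this
    have h2 : b.repr (b j) i = if i = j then 1 else 0 := by
      rw [Module.Basis.repr_self, Finsupp.single_apply]
      simp only [eq_comm]
    rw [h2] at h1
    have h3 := Ideal.Quotient.eq_zero_iff_mem.mpr h1
    rw [map_sub, sub_eq_zero] at h3
    rw [h3]
    split_ifs <;> simp
  rw [hmat, Matrix.det_one, sub_self]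

/-! ### Continuity of trace and determinant -/

/-- Traces and determinants are locally constant modulo `m ^ n` (one field for both). -/
theorem trace_det_congr_of_agree {A : Type} [CommRing A] [IsLocalRing A] (ρ : GaloisRepAdic A)
    (n : ℕ) :
    ∃ L : IntermediateField ℚ Qb, FiniteDimensional ℚ L ∧
      ∀ g g' : GQ, (∀ x ∈ L, g x = g' x) →
        ρ.trace g - ρ.trace g' ∈ IsLocalRing.maximalIdeal A ^ n ∧
        LinearMap.det (ρ.ρ g) - LinearMap.det (ρ.ρ g') ∈ IsLocalRing.maximalIdeal A ^ n := by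
  obtain ⟨L, hL, h1⟩ := ρ.isAdicContinuous n
  refine ⟨L, hL, fun g g' hgg' => ?_⟩
  have hσ : ∀ x ∈ L, (g'⁻¹ * g) x = x := by
    intro x hx
    rw [AlgEquiv.mul_apply, hgg' x hx]
    exact (g'.symm_apply_apply x)
  have hg : g = g' * (g'⁻¹ * g) := by group
  constructor
  · have key : ρ.ρ g - ρ.ρ g' = ρ.ρ g' * (ρ.ρ (g'⁻¹ * g) - 1) := by
      rw [mul_sub, mul_one, ← map_mul, ← hg]
    have : ρ.trace g - ρ.trace g' = LinearMap.trace A ρ.V (ρ.ρ g' * (ρ.ρ (g'⁻¹ * g) - 1)) := by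
      rw [← key, map_sub]; rfl
    rw [this]
    refine H242.trace_mem_of_forall_mem_smul_top _ _ fun v => ?_
    rw [Module.End.mul_apply]
    have h2 : (ρ.ρ (g'⁻¹ * g) - 1) v ∈
        (IsLocalRing.maximalIdeal A ^ n) • (⊤ : Submodule A ρ.V) := by
      simpa using h1 _ hσ v
    exact H242.map_mem_smul_top _ _ h2
  · have key : LinearMap.det (ρ.ρ g) - LinearMap.det (ρ.ρ g') =
        LinearMap.det (ρ.ρ g') * (LinearMap.det (ρ.ρ (g'⁻¹ * g)) - 1) := by
      rw [mul_sub, mul_one, ← map_mul, ← map_mul, ← hg]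
    rw [key]
    exact Ideal.mul_mem_left _ _ (det_sub_one_mem _ _ (h1 _ hσ))

/-! ### Pulling back powers of the maximal ideal along an injective map from a DVR -/

/-- (after helper22, row S31 piece E0) -/
theorem exists_pow_comap_le {O O' : Type} [CommRing O] [IsDomain O] [IsDiscreteValuationRing O]
    [CommRing O'] [IsLocalRing O'] [IsNoetherianRing O'] (φ : O →+* O')
    (hφ : Function.Injective φ) (n : ℕ) :
    ∃ k : ℕ, ∀ x : O, φ x ∈ IsLocalRing.maximalIdeal O' ^ k →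
      x ∈ IsLocalRing.maximalIdeal O ^ n := by
  by_contra hcon
  push Not at hcon
  obtain ⟨ϖ, hϖ⟩ := IsDiscreteValuationRing.exists_irreducible O
  have hm : IsLocalRing.maximalIdeal O = Ideal.span {ϖ} := hϖ.maximalIdeal_eq
  have hall : ∀ k : ℕ, φ (ϖ ^ n) ∈ IsLocalRing.maximalIdeal O' ^ k := by
    intro k
    obtain ⟨x, hx, hxn⟩ := hcon k
    have hx0 : x ≠ 0 := by
      rintro rfl
      exact hxn (Ideal.zero_mem _)
    obtain ⟨a, u, rfl⟩ := IsDiscreteValuationRing.eq_unit_mul_pow_irreducible hx0 hϖ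
    have han : a < n := by
      by_contra h
      push Not at h
      apply hxn
      rw [hm, Ideal.span_singleton_pow, Ideal.mem_span_singleton]
      exact Dvd.dvd.mul_left (pow_dvd_pow ϖ h) _
    have : ϖ ^ n = (ϖ ^ (n - a) * ↑u⁻¹) * (↑u * ϖ ^ a) := by
      have h1 : ϖ ^ n = ϖ ^ (n - a) * ϖ ^ a := by
        rw [← pow_add]; congr 1; omega
      rw [h1]
      have h2 : (↑u⁻¹ : O) * ↑u = 1 := by simp
      calc ϖ ^ (n - a) * ϖ ^ a = ϖ ^ (n - a) * ((↑u⁻¹ : O) * ↑u) * ϖ ^ a := by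
            rw [h2, mul_one]
        _ = _ := by ring
    rw [this, map_mul]
    exact Ideal.mul_mem_left _ _ hx
  have hzero : φ (ϖ ^ n) = 0 := by
    have h1 : φ (ϖ ^ n) ∈ ⨅ k, IsLocalRing.maximalIdeal O' ^ k := by
      rw [Ideal.mem_iInf]; exact hall
    rw [Ideal.iInf_pow_eq_bot_of_isLocalRing _ (Ideal.IsMaximal.ne_top inferInstance)] at h1
    simpa using h1
  have : ϖ ^ n = 0 := hφ (by rw [hzero, map_zero])
  exact pow_ne_zero n hϖ.ne_zero this

/-! ### Approximating trace and determinant by Hecke elements -/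

section Approx

variable {N : ℕ} [NeZero N] {S : Finset ℕ}

/-- the Hecke element computing the trace of the `j`-th power of a Frobenius at `ℓ` -/
noncomputable def heckePow {ℓ : ℕ} (hℓ : ℓ.Prime) (hℓN : ¬ ℓ ∣ N) (hℓS : ℓ ∉ (↑S : Set ℕ))
    (j : ℕ) : CuspForm.heckeAlgebra N 2 (↑S : Set ℕ) :=
  powTr (CuspForm.heckeAlgebra.T hℓ hℓN hℓS) (ℓ : CuspForm.heckeAlgebra N 2 (↑S : Set ℕ)) j

theorem trace_det_sub_hecke_mem {A : Type} [CommRing A] [IsLocalRing A] (ρ : GaloisRepAdic A)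
    (φ : CuspForm.heckeAlgebra N 2 (↑S : Set ℕ) →+* A) (hfrob : FrobCond ρ φ)
    (n : ℕ) (L : IntermediateField ℚ Qb)
    (hL : ∀ g g' : GQ, (∀ x ∈ L, g x = g' x) →
      ρ.trace g - ρ.trace g' ∈ IsLocalRing.maximalIdeal A ^ n ∧
      LinearMap.det (ρ.ρ g) - LinearMap.det (ρ.ρ g') ∈ IsLocalRing.maximalIdeal A ^ n)
    (g : GQ) {ℓ : ℕ} (hℓ : ℓ.Prime) (hℓN : ¬ ℓ ∣ N) (hℓS : ℓ ∉ (↑S : Set ℕ))
    (B : ValuationSubring Qb) (hB : B.LiesOverPrime ℓ) (σ : GQ) (hσ : B.IsFrobeniusAt σ ℓ)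
    (j : ℕ) (hj : ∀ x ∈ L, (σ ^ j) x = g x) :
    ρ.trace g - φ (heckePow hℓ hℓN hℓS j) ∈ IsLocalRing.maximalIdeal A ^ n ∧
    LinearMap.det (ρ.ρ g) - φ ((ℓ : CuspForm.heckeAlgebra N 2 (↑S : Set ℕ)) ^ j) ∈
      IsLocalRing.maximalIdeal A ^ n := by
  have h1 := hL g (σ ^ j) (fun x hx => (hj x hx).symm)
  have h2 : ρ.trace (σ ^ j) = φ (heckePow hℓ hℓN hℓS j) := by
    rw [heckePow, H169.map_powTr, map_natCast]
    show LinearMap.trace A ρ.V (ρ.ρ (σ ^ j)) = _
    rw [map_pow]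
    exact H169.trace_pow_of_charpoly ρ.finrank_eq _ _ _ (hfrob ℓ hℓ hℓN hℓS B hB σ hσ) j
  have h3 : LinearMap.det (ρ.ρ (σ ^ j)) =
      φ ((ℓ : CuspForm.heckeAlgebra N 2 (↑S : Set ℕ)) ^ j) := by
    rw [map_pow ρ.ρ, map_pow φ, map_natCast]
    exact det_pow_of_charpoly ρ.finrank_eq _ _ _ (hfrob ℓ hℓ hℓN hℓS B hB σ hσ) j
  rw [h2, h3] at h1
  exact h1

end Approx

/-! ### The per-point lemma -/

section Point

variable {p : ℕ} {N : ℕ} [NeZero N] {S : Finset ℕ}

/-- `τ` lies in an inertia group at `q`. -/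
def IsInertialAt (q : ℕ) (τ : GQ) : Prop :=
  ∃ B : ValuationSubring Qb, B.LiesOverPrime q ∧ τ ∈ B.inertiaSubgroupIn ℚ

theorem exists_field_of_point (hA2 : A2Input) (hp : p.Prime) (hpS : p ∈ S)
    (hNS : ∀ q : ℕ, q.Prime → q ∣ N → q ∈ S)
    (q : ℕ) (hq : q.Prime) (hqp : q ≠ p) (hqN : q ∣ N) (hq2 : ¬ q ^ 2 ∣ N)
    (P : PadicPoint p (CuspForm.heckeAlgebra N 2 (↑S : Set ℕ))) (n' : ℕ) :
    ∃ L : IntermediateField ℚ Qb, FiniteDimensional ℚ L ∧
      ∀ (τ : GQ), IsInertialAt q τ →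
      ∀ {ℓ : ℕ} (hℓ : ℓ.Prime) (hℓN : ¬ ℓ ∣ N) (hℓS : ℓ ∉ (↑S : Set ℕ))
        (B : ValuationSubring Qb) (_ : B.LiesOverPrime ℓ) (σ : GQ) (_ : B.IsFrobeniusAt σ ℓ)
        (j : ℕ) (_ : ∀ x ∈ L, (σ ^ j) x = τ x),
        P.χ (heckePow hℓ hℓN hℓS j - 2) ∈ IsLocalRing.maximalIdeal P.O ^ n' ∧
        P.χ ((ℓ : CuspForm.heckeAlgebra N 2 (↑S : Set ℕ)) ^ j - 1) ∈
          IsLocalRing.maximalIdeal P.O ^ n' := by
  have : Fact p.Prime := ⟨hp⟩
  obtain ⟨O'', i1, i2, i3, φ, hinj, ρ'', hfrob, huni⟩ :=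
    hA2 p N S hpS hNS P.O P.hp P.χ q hq hqp hqN hq2
  obtain ⟨k, hk⟩ := exists_pow_comap_le φ hinj n'
  obtain ⟨L, hLfin, hL⟩ := trace_det_congr_of_agree ρ'' k
  refine ⟨L, hLfin, ?_⟩
  intro τ hτ ℓ hℓ hℓN hℓS B hB σ hσ j hj
  obtain ⟨e1, e2⟩ := trace_det_sub_hecke_mem ρ'' _ hfrob k L hL τ hℓ hℓN hℓS B hB σ hσ j hj
  obtain ⟨Bq, hBq, hτq⟩ := hτ
  have hcp : LinearMap.charpoly (ρ''.ρ τ) = X ^ 2 - C (2 : O'') * X + C (1 : O'') := by
    rw [huni Bq hBq τ hτq, sub_one_sq_eq]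
  have htr : ρ''.trace τ = 2 := trace_of_charpoly ρ''.finrank_eq _ _ _ hcp
  have hdet : LinearMap.det (ρ''.ρ τ) = 1 := det_of_charpoly ρ''.finrank_eq _ _ _ hcp
  rw [htr] at e1
  rw [hdet] at e2
  constructor
  · apply hk
    have : φ (P.χ (heckePow hℓ hℓN hℓS j - 2)) =
        -(2 - (φ.comp P.χ) (heckePow hℓ hℓN hℓS j)) := by
      simp only [RingHom.comp_apply, map_sub, map_ofNat]
      ring
    rw [this]
    exact neg_mem e1
  · apply hk
    have : φ (P.χ ((ℓ : CuspForm.heckeAlgebra N 2 (↑S : Set ℕ)) ^ j - 1)) =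
        -(1 - (φ.comp P.χ) ((ℓ : CuspForm.heckeAlgebra N 2 (↑S : Set ℕ)) ^ j)) := by
      simp only [RingHom.comp_apply, map_sub, map_one]
      ring
    rw [this]
    exact neg_mem e2

end Point

/-! ### finite suprema of finite-dimensional intermediate fields -/

theorem exists_sup_of_list {α : Type*} (F : List α) (L : α → IntermediateField ℚ Qb)
    (hL : ∀ a, FiniteDimensional ℚ (L a)) :
    ∃ E : IntermediateField ℚ Qb, FiniteDimensional ℚ E ∧ ∀ a ∈ F, L a ≤ E := by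
  induction F with
  | nil => exact ⟨⊥, inferInstance, by simp⟩
  | cons a F ih =>
    obtain ⟨E, hE, hle⟩ := ih
    have := hL a
    refine ⟨L a ⊔ E, IntermediateField.finiteDimensional_sup _ _, ?_⟩
    intro b hb
    rcases List.mem_cons.mp hb with rfl | hb
    · exact le_sup_left
    · exact (hle b hb).trans le_sup_right

/-! ### The main argument -/

section Main

variable {p : ℕ} {N : ℕ} [NeZero N] {S : Finset ℕ}
  {𝒪 : Type} [CommRing 𝒪] [IsDomain 𝒪] [IsDiscreteValuationRing 𝒪]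
  [IsAdicComplete (IsLocalRing.maximalIdeal 𝒪) 𝒪]
  {θ : CuspForm.heckeAlgebra N 2 (↑S : Set ℕ) →+* IsLocalRing.ResidueField 𝒪}
  {T : Type} [CommRing T] [IsLocalRing T] [IsNoetherianRing T]
  [IsAdicComplete (IsLocalRing.maximalIdeal T) T] [Algebra 𝒪 T] [IsLocalHom (algebraMap 𝒪 T)]
  [Module.Finite 𝒪 T] [Module.Free 𝒪 T]

/-- trace `= 2` and determinant `= 1` on inertia at `q ∥ N`, `q ≠ p`. -/
theorem trace_det_inertia (hA2 : A2Input) (hcheb : ChebStatement) (hp : p.Prime)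
    (hp𝒪 : (p : 𝒪) ∈ IsLocalRing.maximalIdeal 𝒪) (hpS : p ∈ S)
    (hNS : ∀ q : ℕ, q.Prime → q ∣ N → q ∈ S)
    (hPTS : PTS p (CuspForm.heckeAlgebra N 2 (↑S : Set ℕ)))
    (H : CuspForm.HeckeGaloisRepDatum N (↑S : Set ℕ) 𝒪 θ T)
    (q : ℕ) (hq : q.Prime) (hqp : q ≠ p) (hqN : q ∣ N) (hq2 : ¬ q ^ 2 ∣ N)
    (τ : GQ) (hτ : IsInertialAt q τ) :
    H.ρ.trace τ = 2 ∧ LinearMap.det (H.ρ.ρ τ) = 1 := by
  have hK : (⨅ n, IsLocalRing.maximalIdeal T ^ n) = ⊥ :=
    Ideal.iInf_pow_eq_bot_of_isLocalRing _ (Ideal.IsMaximal.ne_top inferInstance)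
  suffices h : ∀ n : ℕ, H.ρ.trace τ - 2 ∈ IsLocalRing.maximalIdeal T ^ n ∧
      LinearMap.det (H.ρ.ρ τ) - 1 ∈ IsLocalRing.maximalIdeal T ^ n by
    constructor
    · have h1 : H.ρ.trace τ - 2 ∈ ⨅ n, IsLocalRing.maximalIdeal T ^ n := by
        rw [Ideal.mem_iInf]; exact fun n => (h n).1
      rw [hK] at h1
      exact sub_eq_zero.mp (by simpa using h1)
    · have h1 : LinearMap.det (H.ρ.ρ τ) - 1 ∈ ⨅ n, IsLocalRing.maximalIdeal T ^ n := by
        rw [Ideal.mem_iInf]; exact fun n => (h n).2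
      rw [hK] at h1
      exact sub_eq_zero.mp (by simpa using h1)
  intro n
  -- the prime `m` of the Hecke algebra
  set m : Ideal (CuspForm.heckeAlgebra N 2 (↑S : Set ℕ)) :=
    Ideal.comap H.π (IsLocalRing.maximalIdeal T) with hm
  have hmprime : m.IsPrime := Ideal.comap_isPrime _ _
  have hpT : (p : T) ∈ IsLocalRing.maximalIdeal T := by
    have h1 : (p : T) = algebraMap 𝒪 T (p : 𝒪) := by simp
    rw [h1, IsLocalRing.mem_maximalIdeal, mem_nonunits_iff]
    intro hu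
    exact (IsLocalRing.mem_maximalIdeal _).mp hp𝒪 (isUnit_of_map_unit (algebraMap 𝒪 T) _ hu)
  have hpm : (p : CuspForm.heckeAlgebra N 2 (↑S : Set ℕ)) ∈ m := by
    rw [hm, Ideal.mem_comap, map_natCast]; exact hpT
  obtain ⟨F, n', hF⟩ := hPTS m hmprime hpm n
  -- fields
  have hpt := fun P : PadicPoint p (CuspForm.heckeAlgebra N 2 (↑S : Set ℕ)) =>
    exists_field_of_point hA2 hp hpS hNS q hq hqp hqN hq2 P n'
  choose LP hLPfin hLP using hpt
  obtain ⟨E₁, hE₁fin, hE₁⟩ := exists_sup_of_list F LP hLPfin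
  obtain ⟨L₀, hL₀fin, hL₀⟩ := trace_det_congr_of_agree H.ρ n
  have := hE₁fin
  have := hL₀fin
  set E : IntermediateField ℚ Qb := L₀ ⊔ E₁ with hE
  have hEfin : FiniteDimensional ℚ E := IntermediateField.finiteDimensional_sup _ _
  -- Frobenius data for `τ`
  obtain ⟨ℓ, B, σ, k, j, hℓ, hℓS, hB, hσ, -, -, hj⟩ := hcheb E hEfin τ S
  have hℓN : ¬ ℓ ∣ N := fun h => hℓS (hNS ℓ hℓ h)
  have hℓS1 : ℓ ∉ (↑S : Set ℕ) := by simpa using hℓS
  have hL₀E : L₀ ≤ E := le_sup_left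
  have hE₁E : E₁ ≤ E := le_sup_right
  -- approximation for `H.ρ`
  have hfc : FrobCond H.ρ H.π := fun ℓ hℓ hℓN hℓS B hB σ hσ =>
    H.charpoly_frob ℓ hℓ hℓN hℓS B hB σ hσ
  obtain ⟨e1, e2⟩ := trace_det_sub_hecke_mem H.ρ H.π hfc n L₀ hL₀ τ hℓ hℓN hℓS1 B hB σ hσ j
    (fun x hx => hj x (hL₀E hx))
  have hmap : (m ^ n).map H.π ≤ IsLocalRing.maximalIdeal T ^ n := by
    rw [Ideal.map_pow]
    exact Ideal.pow_right_mono (Ideal.map_comap_le) n
  -- the Hecke elements are congruent to `2`, `1` modulo `m ^ n`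
  have hd1 : heckePow hℓ hℓN hℓS1 j - 2 ∈ m ^ n := by
    apply hF
    intro P hP
    exact (hLP P τ hτ hℓ hℓN hℓS1 B hB σ hσ j (fun x hx => hj x (hE₁E (hE₁ P hP hx)))).1
  have hd2 : (ℓ : CuspForm.heckeAlgebra N 2 (↑S : Set ℕ)) ^ j - 1 ∈ m ^ n := by
    apply hF
    intro P hP
    exact (hLP P τ hτ hℓ hℓN hℓS1 B hB σ hσ j (fun x hx => hj x (hE₁E (hE₁ P hP hx)))).2
  have hπ1 := hmap (Ideal.mem_map_of_mem H.π hd1)
  have hπ2 := hmap (Ideal.mem_map_of_mem H.π hd2)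
  constructor
  · have : H.ρ.trace τ - 2 =
        (H.ρ.trace τ - H.π (heckePow hℓ hℓN hℓS1 j)) + H.π (heckePow hℓ hℓN hℓS1 j - 2) := by
      rw [map_sub, map_ofNat]; ring
    rw [this]
    exact Ideal.add_mem _ e1 hπ1
  · have : LinearMap.det (H.ρ.ρ τ) - 1 =
        (LinearMap.det (H.ρ.ρ τ) - H.π ((ℓ : CuspForm.heckeAlgebra N 2 (↑S : Set ℕ)) ^ j)) +
          H.π ((ℓ : CuspForm.heckeAlgebra N 2 (↑S : Set ℕ)) ^ j - 1) := by
      rw [map_sub, map_one]; ring
    rw [this]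
    exact Ideal.add_mem _ e2 hπ2

/-- **S34 from its inputs**: the representation of a Hecke–Galois datum is unipotent on inertia
at every prime `q ≠ p` exactly dividing the level. -/
theorem unipotent_of_parts (hA2 : A2Input) (hcheb : ChebStatement) (hp : p.Prime)
    (hp𝒪 : (p : 𝒪) ∈ IsLocalRing.maximalIdeal 𝒪) (hpS : p ∈ S)
    (hNS : ∀ q : ℕ, q.Prime → q ∣ N → q ∈ S)
    (hPTS : PTS p (CuspForm.heckeAlgebra N 2 (↑S : Set ℕ)))
    (H : CuspForm.HeckeGaloisRepDatum N (↑S : Set ℕ) 𝒪 θ T)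
    (q : ℕ) (hq : q.Prime) (hqp : q ≠ p) (hqN : q ∣ N) (hq2 : ¬ q ^ 2 ∣ N) :
    H.ρ.IsUnipotentOnInertiaAt q := by
  intro P hP τ hτ
  obtain ⟨h1, h2⟩ := trace_det_inertia hA2 hcheb hp hp𝒪 hpS hNS hPTS H q hq hqp hqN hq2 τ
    ⟨P, hP, hτ⟩
  rw [charpoly_eq_of_finrank_two H.ρ.finrank_eq, sub_one_sq_eq]
  have h1' : LinearMap.trace T H.ρ.V (H.ρ.ρ τ) = 2 := h1
  rw [h1', h2]

end Main

end Fermat.Agent.S34.H193
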